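import Mathlib

/-! # Hilbert–Schmidt bounds

`HSBound T C`: for every finite orthonormal family `e` of `H` one has `∑ ‖T (e i)‖² ≤ C`.
This is independent of any choice of basis.  Results:

* `HSBound.sum_le`, `HSBound.summable`, `HSBound.tsum_le`: arbitrary orthonormal families;
* `HSBound.isCompactOperator`: Hilbert–Schmidt operators are compact;
* `HSBound.adjoint`, `HSBound.comp_left`, `HSBound.comp_right`, restriction to subspaces;
* `HSBound.of_pointwise`, `HSBound.of_ae`: operators into `L²` of a finite measure satisfying a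
  sup-norm bound `|T v (x)| ≤ C ‖v‖` are Hilbert–Schmidt. -/

open scoped InnerProductSpace
open MeasureTheory

namespace Fermat.Agent.LT

section HS

variable {H G G' : Type*} [NormedAddCommGroup H] [InnerProductSpace ℂ H]
  [NormedAddCommGroup G] [InnerProductSpace ℂ G] [NormedAddCommGroup G'] [InnerProductSpace ℂ G']

/-- For every finite orthonormal family `e`, `∑ ‖T (e i)‖² ≤ C`. -/
def HSBound (T : H →L[ℂ] G) (C : ℝ) : Prop :=
  ∀ (n : ℕ) (e : Fin n → H), Orthonormal ℂ e → ∑ i, ‖T (e i)‖ ^ 2 ≤ C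

/-- `T` is Hilbert–Schmidt. -/
def IsHS (T : H →L[ℂ] G) : Prop := ∃ C, HSBound T C

variable {T S : H →L[ℂ] G} {C D : ℝ}

theorem HSBound.isHS (h : HSBound T C) : IsHS T := ⟨C, h⟩

theorem HSBound.nonneg (h : HSBound T C) : 0 ≤ C := by
  have := h 0 (fun i => i.elim0) ⟨fun i => i.elim0, fun i => i.elim0⟩
  simpa using this

theorem HSBound.mono (h : HSBound T C) (hCD : C ≤ D) : HSBound T D :=
  fun n e he => (h n e he).trans hCD

theorem HSBound.sum_le (h : HSBound T C) {ι : Type*} {e : ι → H} (he : Orthonormal ℂ e)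
    (s : Finset ι) : ∑ i ∈ s, ‖T (e i)‖ ^ 2 ≤ C := by
  have h1 := h s.card (fun k => e ((s.equivFin.symm k : s) : ι))
    (he.comp _ (Subtype.val_injective.comp s.equivFin.symm.injective))
  rw [← Finset.sum_coe_sort s (fun i => ‖T (e i)‖ ^ 2)]
  rw [← Equiv.sum_comp s.equivFin.symm (fun i : s => ‖T (e (i : ι))‖ ^ 2)]
  exact h1

theorem HSBound.summable (h : HSBound T C) {ι : Type*} {e : ι → H} (he : Orthonormal ℂ e) :
    Summable fun i => ‖T (e i)‖ ^ 2 :=
  summable_of_sum_le (fun _ => by positivity) (fun s => h.sum_le he s)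

theorem HSBound.tsum_le (h : HSBound T C) {ι : Type*} {e : ι → H} (he : Orthonormal ℂ e) :
    ∑' i, ‖T (e i)‖ ^ 2 ≤ C :=
  Real.tsum_le_of_sum_le (fun _ => by positivity) (fun s => h.sum_le he s)

theorem HSBound.norm_sq_le (h : HSBound T C) {u : H} (hu : ‖u‖ = 1) : ‖T u‖ ^ 2 ≤ C := by
  have h1 := h 1 (fun _ => u) ⟨fun _ => hu, fun i j hij => (hij (Subsingleton.elim i j)).elim⟩
  simpa using h1

/-- Post-composition. -/
theorem HSBound.comp_left (h : HSBound T C) (R : G →L[ℂ] G') :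
    HSBound (R ∘L T) (‖R‖ ^ 2 * C) := by
  intro n e he
  calc ∑ i, ‖(R ∘L T) (e i)‖ ^ 2 ≤ ∑ i, ‖R‖ ^ 2 * ‖T (e i)‖ ^ 2 := by
        apply Finset.sum_le_sum
        intro i _
        rw [← mul_pow]
        exact pow_le_pow_left₀ (norm_nonneg _) (R.le_opNorm _) 2
    _ = ‖R‖ ^ 2 * ∑ i, ‖T (e i)‖ ^ 2 := by rw [Finset.mul_sum]
    _ ≤ ‖R‖ ^ 2 * C := mul_le_mul_of_nonneg_left (h n e he) (by positivity)

/-- Composition with an isometry of the source. -/
theorem HSBound.comp_isometry (h : HSBound T C) (R : G' →ₗᵢ[ℂ] H) :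
    HSBound (T ∘L R.toContinuousLinearMap) C := by
  intro n e he
  exact h n (fun i => R (e i)) (he.comp_linearIsometry R)

/-- Restriction to a subspace. -/
theorem HSBound.restrict (h : HSBound T C) (K : Submodule ℂ H) :
    HSBound (T ∘L K.subtypeL) C := by
  intro n e he
  exact h n (fun i => (e i : H)) (he.comp_linearIsometry K.subtypeₗᵢ)

/-- Corestriction to a subspace: only norms matter. -/
theorem HSBound.of_norm_le (h : HSBound T C) (S : H →L[ℂ] G') (hS : ∀ v, ‖S v‖ ≤ ‖T v‖) :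
    HSBound S C := by
  intro n e he
  refine (Finset.sum_le_sum fun i _ => ?_).trans (h n e he)
  exact pow_le_pow_left₀ (norm_nonneg _) (hS _) 2

theorem HSBound.add (h : HSBound T C) (h' : HSBound S D) : HSBound (T + S) (2 * C + 2 * D) := by
  intro n e he
  have h1 := h n e he
  have h2 := h' n e he
  calc ∑ i, ‖(T + S) (e i)‖ ^ 2 ≤ ∑ i, (2 * ‖T (e i)‖ ^ 2 + 2 * ‖S (e i)‖ ^ 2) := by
        apply Finset.sum_le_sum
        intro i _
        have h3 : ‖(T + S) (e i)‖ ≤ ‖T (e i)‖ + ‖S (e i)‖ := norm_add_le _ _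
        have h4 := norm_nonneg ((T + S) (e i))
        nlinarith [sq_nonneg (‖T (e i)‖ - ‖S (e i)‖), norm_nonneg (T (e i)), norm_nonneg (S (e i))]
    _ = 2 * ∑ i, ‖T (e i)‖ ^ 2 + 2 * ∑ i, ‖S (e i)‖ ^ 2 := by
        rw [Finset.sum_add_distrib, Finset.mul_sum, Finset.mul_sum]
    _ ≤ 2 * C + 2 * D := by linarith

theorem HSBound.smul (h : HSBound T C) (a : ℂ) : HSBound (a • T) (‖a‖ ^ 2 * C) := by
  intro n e he
  have h1 := h n e he
  calc ∑ i, ‖(a • T) (e i)‖ ^ 2 = ‖a‖ ^ 2 * ∑ i, ‖T (e i)‖ ^ 2 := by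
        rw [Finset.mul_sum]
        apply Finset.sum_congr rfl
        intro i _
        rw [smul_apply, norm_smul, mul_pow]
    _ ≤ ‖a‖ ^ 2 * C := mul_le_mul_of_nonneg_left h1 (by positivity)

theorem hsBound_zero : HSBound (0 : H →L[ℂ] G) 0 := by
  intro n e _
  simp

theorem IsHS.add (h : IsHS T) (h' : IsHS S) : IsHS (T + S) := by
  obtain ⟨C, hC⟩ := h
  obtain ⟨D, hD⟩ := h'
  exact ⟨_, hC.add hD⟩

theorem IsHS.smul (h : IsHS T) (a : ℂ) : IsHS (a • T) := by
  obtain ⟨C, hC⟩ := h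
  exact ⟨_, hC.smul a⟩

theorem IsHS.comp_left (h : IsHS T) (R : G →L[ℂ] G') : IsHS (R ∘L T) := by
  obtain ⟨C, hC⟩ := h
  exact ⟨_, hC.comp_left R⟩

/-- **Hilbert–Schmidt operators are compact.** -/
theorem HSBound.isCompactOperator [CompleteSpace G] (h : HSBound T C) :
    IsCompactOperator T := by
  -- the supremum of all the sums
  set A : Set ℝ := {r | ∃ (n : ℕ) (e : Fin n → H), Orthonormal ℂ e ∧ r = ∑ i, ‖T (e i)‖ ^ 2}
    with hA
  have hAne : A.Nonempty :=
    ⟨0, 0, fun i => i.elim0, ⟨fun i => i.elim0, fun i => i.elim0⟩, by simp⟩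
  have hAbd : BddAbove A := by
    refine ⟨C, ?_⟩
    rintro r ⟨n, e, he, rfl⟩
    exact h n e he
  -- finite rank approximations
  have happrox : ∀ ε : ℝ, 0 < ε → ∃ F : H →L[ℂ] G, IsCompactOperator F ∧ ‖T - F‖ ≤ ε := by
    intro ε hε
    obtain ⟨r, ⟨n, e, he, rfl⟩, hr⟩ := exists_lt_of_lt_csSup hAne
      (show sSup A - ε ^ 2 < sSup A by have := sq_pos_of_pos hε; linarith)
    set K : Submodule ℂ H := Submodule.span ℂ (Set.range e) with hK
    have : FiniteDimensional ℂ K := FiniteDimensional.span_of_finite ℂ (Set.finite_range e)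
    let P : H →L[ℂ] H := K.subtypeL ∘L K.orthogonalProjectionOnto
    refine ⟨T ∘L P, ?_, ?_⟩
    · have h1 : IsCompactOperator (T ∘L K.subtypeL) :=
        isCompactOperator_of_locallyCompactSpace_rng _
      exact h1.comp_clm K.orthogonalProjectionOnto
    · refine ContinuousLinearMap.opNorm_le_bound _ hε.le fun v => ?_
      -- `u = v - P v` is orthogonal to `K`
      set u : H := v - P v with hu
      have hTu : (T - T ∘L P) v = T u := by
        simp [hu, map_sub]
      have huK : u ∈ Kᗮ := Submodule.sub_starProjection_mem_orthogonal (K := K) v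
      have hunorm : ‖u‖ ≤ ‖v‖ := by
        have h2 : ‖v‖ ^ 2 = ‖P v‖ ^ 2 + ‖u‖ ^ 2 := by
          have h3 : ⟪P v, u⟫_ℂ = 0 :=
            (Submodule.mem_orthogonal K u).mp huK (P v) (K.orthogonalProjectionOnto v).2
          have h4 : v = P v + u := by rw [hu]; abel
          have h5 := norm_add_sq (𝕜 := ℂ) (P v) u
          rw [← h4, h3] at h5
          simpa using h5
        nlinarith [norm_nonneg u, norm_nonneg v, sq_nonneg ‖P v‖]
      rw [hTu]
      by_cases hu0 : u = 0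
      · rw [hu0, map_zero, norm_zero]; positivity
      · have hupos : 0 < ‖u‖ := norm_pos_iff.mpr hu0
        set w : H := ((‖u‖ : ℂ)⁻¹) • u with hw
        have hwnorm : ‖w‖ = 1 := by
          rw [hw, norm_smul, norm_inv, Complex.norm_real, norm_norm]
          exact inv_mul_cancel₀ hupos.ne'
        have horth : Orthonormal ℂ (Matrix.vecCons w e : Fin (n + 1) → H) := by
          rw [orthonormal_vecCons_iff]
          refine ⟨hwnorm, fun i => ?_, he⟩
          have h6 : ⟪e i, u⟫_ℂ = 0 :=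
            (Submodule.mem_orthogonal K u).mp huK (e i) (Submodule.subset_span ⟨i, rfl⟩)
          rw [hw, inner_smul_left, ← inner_conj_symm, h6, map_zero, mul_zero]
        have hmem : ∑ i, ‖T ((Matrix.vecCons w e : Fin (n + 1) → H) i)‖ ^ 2 ∈ A :=
          ⟨n + 1, _, horth, rfl⟩
        have hle := le_csSup hAbd hmem
        rw [Fin.sum_univ_succ] at hle
        simp only [Matrix.cons_val_zero, Matrix.cons_val_succ] at hle
        have h7 : ‖T w‖ ^ 2 ≤ ε ^ 2 := by linarith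
        have h8 : ‖T w‖ ≤ ε := le_of_sq_le_sq h7 hε.le
        have h9 : T u = (‖u‖ : ℂ) • T w := by
          rw [hw, map_smul, smul_smul, mul_inv_cancel₀ (by exact_mod_cast hupos.ne'), one_smul]
        rw [h9, norm_smul, Complex.norm_real, norm_norm]
        calc ‖u‖ * ‖T w‖ ≤ ‖v‖ * ε := mul_le_mul hunorm h8 (norm_nonneg _) (norm_nonneg _)
          _ = ε * ‖v‖ := mul_comm _ _
  have hclosed := isClosed_setOfPred_isCompactOperator (σ₁₂ := RingHom.id ℂ) (M₁ := H) (M₂ := G)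
  have hmem : T ∈ closure {f : H →L[ℂ] G | IsCompactOperator f} := by
    rw [Metric.mem_closure_iff]
    intro ε hε
    obtain ⟨F, hF, hTF⟩ := happrox (ε / 2) (by positivity)
    exact ⟨F, hF, by rw [dist_eq_norm]; linarith⟩
  rw [hclosed.closure_eq] at hmem
  exact hmem

theorem IsHS.isCompactOperator [CompleteSpace G] (h : IsHS T) : IsCompactOperator T := by
  obtain ⟨C, hC⟩ := h
  exact hC.isCompactOperator

/-- Parseval for a Hilbert basis. -/
theorem hasSum_norm_inner_sq {ι : Type*} (b : HilbertBasis ι ℂ H) (v : H) :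
    HasSum (fun i => ‖⟪b i, v⟫_ℂ‖ ^ 2) (‖v‖ ^ 2) := by
  have h1 := b.hasSum_inner_mul_inner v v
  have h2 : ∀ i, ⟪v, b i⟫_ℂ * ⟪b i, v⟫_ℂ = ((‖⟪b i, v⟫_ℂ‖ ^ 2 : ℝ) : ℂ) := by
    intro i
    rw [← inner_conj_symm v (b i), Complex.conj_mul']
    norm_cast
  rw [inner_self_eq_norm_sq_to_K] at h1
  simp_rw [h2] at h1
  have h3 := Complex.hasSum_re h1
  simp only [Complex.ofReal_re] at h3
  convert h3 using 1
  norm_cast

/-- The adjoint of a Hilbert–Schmidt operator has the same bound. -/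
theorem HSBound.adjoint [CompleteSpace H] [CompleteSpace G] (h : HSBound T C) :
    HSBound (ContinuousLinearMap.adjoint T) C := by
  intro n f hf
  obtain ⟨w, b, -⟩ := exists_hilbertBasis ℂ H
  have h1 : ∀ i, HasSum (fun j => ‖⟪f i, T (b j)⟫_ℂ‖ ^ 2)
      (‖ContinuousLinearMap.adjoint T (f i)‖ ^ 2) := by
    intro i
    have h2 := hasSum_norm_inner_sq b (ContinuousLinearMap.adjoint T (f i))
    convert h2 using 1
    funext j
    rw [ContinuousLinearMap.adjoint_inner_right, ← inner_conj_symm, RCLike.norm_conj]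
  have h3 : HasSum (fun j => ∑ i, ‖⟪f i, T (b j)⟫_ℂ‖ ^ 2)
      (∑ i, ‖ContinuousLinearMap.adjoint T (f i)‖ ^ 2) := hasSum_sum fun i _ => h1 i
  rw [← h3.tsum_eq]
  refine le_trans ?_ (h.tsum_le b.orthonormal)
  refine Summable.tsum_le_tsum (fun j => ?_) h3.summable (h.summable b.orthonormal)
  exact hf.sum_inner_products_le (T (b j)) (s := Finset.univ)

theorem IsHS.adjoint [CompleteSpace H] [CompleteSpace G] (h : IsHS T) :
    IsHS (ContinuousLinearMap.adjoint T) := by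
  obtain ⟨C, hC⟩ := h
  exact ⟨C, hC.adjoint⟩

/-- Pre-composition. -/
theorem HSBound.comp_right [CompleteSpace H] [CompleteSpace G] [CompleteSpace G']
    (h : HSBound T C) (R : G' →L[ℂ] H) : HSBound (T ∘L R) (‖R‖ ^ 2 * C) := by
  have h1 := (h.adjoint.comp_left (ContinuousLinearMap.adjoint R)).adjoint
  rw [ContinuousLinearMap.adjoint_comp, ContinuousLinearMap.adjoint_adjoint,
    ContinuousLinearMap.adjoint_adjoint] at h1
  simpa using h1

theorem IsHS.comp_right [CompleteSpace H] [CompleteSpace G] [CompleteSpace G']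
    (h : IsHS T) (R : G' →L[ℂ] H) : IsHS (T ∘L R) := by
  obtain ⟨C, hC⟩ := h
  exact ⟨_, hC.comp_right R⟩

/-- Bessel's inequality for a bounded functional, in a form which needs no completeness. -/
theorem sum_norm_sq_le_of_functional {ι : Type*} (s : Finset ι) {e : ι → H}
    (he : Orthonormal ℂ e) (l : H →ₗ[ℂ] ℂ) {C : ℝ} (hl : ∀ v, ‖l v‖ ≤ C * ‖v‖) :
    ∑ i ∈ s, ‖l (e i)‖ ^ 2 ≤ C ^ 2 := by
  set v : H := ∑ i ∈ s, (starRingEnd ℂ (l (e i))) • e i with hv
  have h1 : l v = ((∑ i ∈ s, ‖l (e i)‖ ^ 2 : ℝ) : ℂ) := by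
    rw [hv, map_sum]
    push_cast
    apply Finset.sum_congr rfl
    intro i _
    rw [map_smul, smul_eq_mul, Complex.conj_mul']
  have h2 : ‖v‖ ^ 2 = ∑ i ∈ s, ‖l (e i)‖ ^ 2 := by
    have h3 : ⟪v, v⟫_ℂ = ((∑ i ∈ s, ‖l (e i)‖ ^ 2 : ℝ) : ℂ) := by
      rw [hv, he.inner_sum]
      push_cast
      apply Finset.sum_congr rfl
      intro i _
      rw [Complex.conj_conj, Complex.mul_conj']
    have h4 : (((‖v‖ ^ 2 : ℝ)) : ℂ) = ⟪v, v⟫_ℂ := by
      rw [inner_self_eq_norm_sq_to_K]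
      norm_cast
    exact Complex.ofReal_injective (h4.trans h3)
  set Q : ℝ := ∑ i ∈ s, ‖l (e i)‖ ^ 2 with hQ
  have hQ0 : 0 ≤ Q := Finset.sum_nonneg fun i _ => by positivity
  have h4 : Q ≤ C * ‖v‖ := by
    have := hl v
    rw [h1, Complex.norm_real, Real.norm_of_nonneg hQ0] at this
    exact this
  by_cases hQ1 : Q = 0
  · rw [hQ1]; positivity
  · have hQpos : 0 < Q := lt_of_le_of_ne hQ0 (Ne.symm hQ1)
    have h5 : Q ^ 2 ≤ C ^ 2 * Q := by
      calc Q ^ 2 ≤ (C * ‖v‖) ^ 2 := pow_le_pow_left₀ hQ0 h4 2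
        _ = C ^ 2 * Q := by rw [mul_pow, h2]
    nlinarith

theorem summable_norm_sq_of_functional {ι : Type*} {e : ι → H}
    (he : Orthonormal ℂ e) (l : H →ₗ[ℂ] ℂ) {C : ℝ} (hl : ∀ v, ‖l v‖ ≤ C * ‖v‖) :
    Summable fun i => ‖l (e i)‖ ^ 2 :=
  summable_of_sum_le (fun _ => by positivity) (fun s => sum_norm_sq_le_of_functional s he l hl)

theorem tsum_norm_sq_le_of_functional {ι : Type*} {e : ι → H}
    (he : Orthonormal ℂ e) (l : H →ₗ[ℂ] ℂ) {C : ℝ} (hl : ∀ v, ‖l v‖ ≤ C * ‖v‖) :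
    ∑' i, ‖l (e i)‖ ^ 2 ≤ C ^ 2 :=
  Real.tsum_le_of_sum_le (fun _ => by positivity)
    (fun s => sum_norm_sq_le_of_functional s he l hl)

end HS

end Fermat.Agent.LT
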