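import Mathlib

/-! # Joint eigenspaces of a commuting family of self-adjoint operators, some of them compact

`H` is a complex Hilbert space, `A i` (`i : I`) bounded self-adjoint operators which commute,
`A i` is compact for `i ∈ c`, and no non-zero vector is killed by all `A i`, `i ∈ c`.  Then the
joint eigenspaces `jointEig A χ` (`χ : I → ℝ`) are finite dimensional, pairwise orthogonal, and
their sum is dense. -/

open Module.End
open scoped InnerProductSpace

namespace Fermat.Agent.LT

section Joint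

variable {H : Type*} [NormedAddCommGroup H] [InnerProductSpace ℂ H]
variable {I : Type*}

/-- The joint eigenspace with real eigenvalues `χ`. -/
def jointEig (A : I → H →L[ℂ] H) (χ : I → ℝ) : Submodule ℂ H where
  carrier := {v | ∀ i, A i v = (χ i : ℂ) • v}
  add_mem' := by
    intro a b ha hb i
    rw [map_add, ha i, hb i, smul_add]
  zero_mem' := by intro i; simp
  smul_mem' := by
    intro a v hv i
    rw [map_smul, hv i, smul_comm]

theorem mem_jointEig {A : I → H →L[ℂ] H} {χ : I → ℝ} {v : H} :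
    v ∈ jointEig A χ ↔ ∀ i, A i v = (χ i : ℂ) • v := Iff.rfl

/-- An eigenvalue of a symmetric operator on a non-zero vector is real. -/
theorem eig_real {T : H →L[ℂ] H} (hT : T.IsSymmetric) {v : H} (hv : v ≠ 0) {μ : ℂ}
    (h : T v = μ • v) : ((μ.re : ℝ) : ℂ) = μ := by
  have hev : HasEigenvalue (T : Module.End ℂ H) μ := by
    rw [Module.End.hasEigenvalue_iff]
    intro hbot
    have : v ∈ eigenspace (T : Module.End ℂ H) μ := by
      rw [mem_eigenspace_iff]; exact h
    rw [hbot] at this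
    exact hv (by simpa using this)
  exact Complex.conj_eq_iff_re.mp (hT.conj_eigenvalue_eq_self hev)

theorem jointEig_inner_eq_zero {A : I → H →L[ℂ] H} (hsa : ∀ i, (A i).IsSymmetric)
    {χ χ' : I → ℝ} (hne : χ ≠ χ') {v w : H} (hv : v ∈ jointEig A χ) (hw : w ∈ jointEig A χ') :
    ⟪v, w⟫_ℂ = 0 := by
  obtain ⟨i, hi⟩ := Function.ne_iff.mp hne
  have h1 : ⟪A i v, w⟫_ℂ = ⟪v, A i w⟫_ℂ := hsa i v w
  rw [hv i, hw i, inner_smul_left, inner_smul_right, Complex.conj_ofReal] at h1
  have h2 : ((χ i : ℂ) - (χ' i : ℂ)) * ⟪v, w⟫_ℂ = 0 := by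
    rw [sub_mul, h1, sub_self]
  rcases mul_eq_zero.mp h2 with h3 | h3
  · exfalso
    apply hi
    have := sub_eq_zero.mp h3
    exact_mod_cast this
  · exact h3

theorem orthogonalFamily_jointEig {A : I → H →L[ℂ] H} (hsa : ∀ i, (A i).IsSymmetric) :
    OrthogonalFamily ℂ (fun χ : I → ℝ => jointEig A χ) fun χ => (jointEig A χ).subtypeₗᵢ :=
  fun _ _ hne v w => jointEig_inner_eq_zero hsa hne v.2 w.2

/-- The orthogonal complement of the sum of the joint eigenspaces is stable. -/
theorem orthogonal_iSup_jointEig_stable {A : I → H →L[ℂ] H} (hsa : ∀ i, (A i).IsSymmetric)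
    (i : I) {v : H} (hv : v ∈ (⨆ χ : I → ℝ, jointEig A χ)ᗮ) :
    A i v ∈ (⨆ χ : I → ℝ, jointEig A χ)ᗮ := by
  rw [Submodule.mem_orthogonal] at hv ⊢
  intro u hu
  -- the functional `u ↦ ⟪u, A i v⟫` is zero on each piece
  have key : (⨆ χ : I → ℝ, jointEig A χ) ≤ (Submodule.span ℂ {A i v})ᗮ := by
    refine iSup_le fun χ w hw => ?_
    rw [Submodule.mem_orthogonal]
    intro x hx
    obtain ⟨a, rfl⟩ := Submodule.mem_span_singleton.mp hx
    have h1 : ⟪A i w, v⟫_ℂ = ⟪w, A i v⟫_ℂ := hsa i w v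
    have h2 : ⟪w, v⟫_ℂ = 0 := hv w (Submodule.mem_iSup_of_mem χ hw)
    have h3 : ⟪w, A i v⟫_ℂ = 0 := by
      rw [← h1, hw i, inner_smul_left, h2, mul_zero]
    rw [inner_smul_left, ← inner_conj_symm, h3, map_zero, mul_zero]
  have h4 := key hu
  rw [Submodule.mem_orthogonal] at h4
  have h5 := h4 (A i v) (Submodule.mem_span_singleton_self _)
  rw [← inner_conj_symm, h5, map_zero]

/-- A commuting family of symmetric operators of a non-zero finite dimensional space has a joint
eigenvector. -/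
theorem exists_joint_eigenvector {E : Type*} [NormedAddCommGroup E] [InnerProductSpace ℂ E]
    [FiniteDimensional ℂ E] [Nontrivial E] {D : I → E →ₗ[ℂ] E}
    (hDs : ∀ j, (D j).IsSymmetric) (hDc : ∀ i j v, D i (D j v) = D j (D i v)) :
    ∃ w : E, w ≠ 0 ∧ ∃ χ : I → ℂ, ∀ j, D j w = χ j • w := by
  have hp : Pairwise (Function.onFun Commute D) := by
    intro j k _
    apply LinearMap.ext
    intro x
    exact hDc j k _
  have htop := LinearMap.IsSymmetric.iSup_iInf_eq_top_of_commute hDs hp
  obtain ⟨χ, hχ⟩ : ∃ χ : I → ℂ, (⨅ j, eigenspace (D j) (χ j)) ≠ ⊥ := by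
    by_contra h
    push Not at h
    rw [iSup_congr h, iSup_bot] at htop
    exact bot_ne_top htop
  obtain ⟨w, hw, hw0⟩ := Submodule.exists_mem_ne_zero_of_ne_bot hχ
  rw [Submodule.mem_iInf] at hw
  exact ⟨w, hw0, χ, fun j => mem_eigenspace_iff.mp (hw j)⟩

variable [CompleteSpace H]

/-- **Joint diagonalisation**: the joint eigenspaces have trivial orthogonal complement. -/
theorem orthogonal_iSup_jointEig_eq_bot {A : I → H →L[ℂ] H} (hsa : ∀ i, (A i).IsSymmetric)
    (hcomm : ∀ i j v, A i (A j v) = A j (A i v)) {c : Set I}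
    (hc : ∀ i ∈ c, IsCompactOperator (A i))
    (hker : ∀ v, (∀ i ∈ c, A i v = 0) → v = 0) :
    (⨆ χ : I → ℝ, jointEig A χ)ᗮ = ⊥ := by
  set M : Submodule ℂ H := (⨆ χ : I → ℝ, jointEig A χ)ᗮ with hM
  have hstab : ∀ i, ∀ v ∈ M, A i v ∈ M := fun i v hv => orthogonal_iSup_jointEig_stable hsa i hv
  by_contra hne
  obtain ⟨v, hvM, hv0⟩ := Submodule.exists_mem_ne_zero_of_ne_bot hne
  -- some compact operator does not kill `v`
  obtain ⟨i, hic, hiv⟩ : ∃ i ∈ c, A i v ≠ 0 := by
    by_contra h
    push Not at h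
    exact hv0 (hker v h)
  -- restrict to `M`
  have hTc : IsCompactOperator ((A i).restrict (hstab i) : M →L[ℂ] M) :=
    (hc i hic).restrict' (hstab i)
  have hTs : ((A i).restrict (hstab i) : M →L[ℂ] M).IsSymmetric := fun x y => hsa i x y
  have hT0 : ((A i).restrict (hstab i) : M →L[ℂ] M) ≠ 0 := by
    intro h0
    apply hiv
    have := congrArg (fun S : M →L[ℂ] M => ((S ⟨v, hvM⟩ : M) : H)) h0
    simpa using this
  have hex : ∃ μ : ℂ, HasEigenvalue (((A i).restrict (hstab i) : M →L[ℂ] M) :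
      Module.End ℂ M) μ ∧ μ ≠ 0 := by
    by_contra h
    push Not at h
    exact hT0 ((ContinuousLinearMap.eq_zero_of_forall_hasEigenvalue_eq_zero hTc hTs).mp h)
  obtain ⟨μ, hμ, hμ0⟩ := hex
  obtain ⟨x0, hx0⟩ := hμ.exists_hasEigenvector
  have hx0A : A i (x0 : H) = μ • (x0 : H) := by
    have := congrArg (fun y : M => (y : H)) hx0.apply_eq_smul
    simpa using this
  have hx0ne : (x0 : H) ≠ 0 := by
    intro h
    exact hx0.2 (Subtype.ext h)
  -- the finite dimensional space
  have hfin : FiniteDimensional ℂ (eigenspace (A i : Module.End ℂ H) μ) :=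
    ContinuousLinearMap.finite_dimensional_eigenspace (hc i hic) μ hμ0
  set E : Submodule ℂ H := eigenspace (A i : Module.End ℂ H) μ ⊓ M with hE
  have hEfin : FiniteDimensional ℂ E := Submodule.finiteDimensional_of_le inf_le_left
  have hEne : Nontrivial E := by
    rw [Submodule.nontrivial_iff_ne_bot]
    intro hbot
    have : (x0 : H) ∈ E := ⟨mem_eigenspace_iff.mpr hx0A, x0.2⟩
    rw [hbot] at this
    exact hx0ne (by simpa using this)
  have hAE : ∀ j, ∀ x ∈ E, A j x ∈ E := by
    intro j x hx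
    refine Submodule.mem_inf.mpr ⟨mem_eigenspace_iff.mpr ?_, hstab j x hx.2⟩
    have hx' : A i x = μ • x := mem_eigenspace_iff.mp hx.1
    change A i (A j x) = μ • A j x
    rw [hcomm i j, hx', map_smul]
  obtain ⟨w, hw0, χ, hw⟩ := exists_joint_eigenvector
    (D := fun j => (A j : H →ₗ[ℂ] H).restrict (hAE j))
    (fun j x y => hsa j x y) (fun j k x => Subtype.ext (hcomm j k x))
  have hwA : ∀ j, A j (w : H) = χ j • (w : H) := by
    intro j
    exact congrArg (fun y : E => (y : H)) (hw j)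
  have hwne : (w : H) ≠ 0 := by
    intro h
    exact hw0 (Subtype.ext h)
  have hmem : (w : H) ∈ jointEig A (fun j => (χ j).re) := by
    intro j
    rw [hwA j]
    congr 1
    exact (eig_real (hsa j) hwne (hwA j)).symm
  have h1 : (w : H) ∈ M := w.2.2
  have h2 : (w : H) ∈ ⨆ χ : I → ℝ, jointEig A χ := Submodule.mem_iSup_of_mem _ hmem
  have h3 := (Submodule.mem_orthogonal _ _).mp h1 _ h2
  exact hwne (inner_self_eq_zero.mp h3)

/-- The sum of the joint eigenspaces is dense. -/
theorem iSup_jointEig_topologicalClosure {A : I → H →L[ℂ] H} (hsa : ∀ i, (A i).IsSymmetric)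
    (hcomm : ∀ i j v, A i (A j v) = A j (A i v)) {c : Set I}
    (hc : ∀ i ∈ c, IsCompactOperator (A i))
    (hker : ∀ v, (∀ i ∈ c, A i v = 0) → v = 0) :
    (⨆ χ : I → ℝ, jointEig A χ).topologicalClosure = ⊤ := by
  rw [Submodule.topologicalClosure_eq_top_iff]
  exact orthogonal_iSup_jointEig_eq_bot hsa hcomm hc hker

/-- The joint eigenspaces are finite dimensional. -/
theorem finiteDimensional_jointEig {A : I → H →L[ℂ] H} {c : Set I}
    (hc : ∀ i ∈ c, IsCompactOperator (A i))
    (hker : ∀ v, (∀ i ∈ c, A i v = 0) → v = 0) (χ : I → ℝ) :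
    FiniteDimensional ℂ (jointEig A χ) := by
  by_cases h : ∃ i ∈ c, χ i ≠ 0
  · obtain ⟨i, hic, hi⟩ := h
    have hfin : FiniteDimensional ℂ (eigenspace (A i : Module.End ℂ H) (χ i : ℂ)) :=
      ContinuousLinearMap.finite_dimensional_eigenspace (hc i hic) _ (by exact_mod_cast hi)
    have hle : jointEig A χ ≤ eigenspace (A i : Module.End ℂ H) (χ i : ℂ) := by
      intro v hv
      rw [mem_eigenspace_iff]
      exact hv i
    exact Submodule.finiteDimensional_of_le hle
  · push Not at h
    have hbot : jointEig A χ = ⊥ := by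
      rw [Submodule.eq_bot_iff]
      intro v hv
      apply hker
      intro i hic
      rw [hv i, h i hic]
      simp
    rw [hbot]
    infer_instance

end Joint

end Fermat.Agent.LT
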