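import Mathlib
import Fermat.Agent.LT.Spec.HS

/-! # The Hilbert–Schmidt pairing and traces on an orthogonal decomposition

* `hsPair S T`: the sum `∑ ⟪S e, T e⟫` over a Hilbert basis; `IsHS.hasSum_pair` : it converges
  absolutely and does not depend on the basis;
* `trOn W A`: the trace of the compression of `A` to a finite dimensional subspace `W`;
* `IsHS.hasSum_trOn` : for an orthogonal family of finite dimensional subspaces `W i` with dense
  sum, `∑ trOn (W i) (S† T) = hsPair S T`, absolutely convergent. -/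

open scoped InnerProductSpace
open MeasureTheory

namespace Fermat.Agent.LT

section Pair

variable {H G : Type*} [NormedAddCommGroup H] [InnerProductSpace ℂ H]
  [NormedAddCommGroup G] [InnerProductSpace ℂ G]
variable {S T : H →L[ℂ] G}

/-- An orthonormal family in a separable space is countable. -/
theorem countable_of_orthonormal [TopologicalSpace.SeparableSpace H] {ι : Type*} {e : ι → H}
    (he : Orthonormal ℂ e) : Countable ι := by
  have hdist : ∀ i j, i ≠ j → 1 < dist (e i) (e j) := by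
    intro i j hij
    have h1 : ‖e i - e j‖ ^ 2 = 2 := by
      rw [@norm_sub_sq ℂ, he.1 i, he.1 j, he.2 hij]
      norm_num
    rw [dist_eq_norm]
    nlinarith [norm_nonneg (e i - e j)]
  have h : (Set.univ : Set ι).PairwiseDisjoint (fun i => Metric.ball (e i) (1 / 2)) := by
    intro i _ j _ hij
    apply Metric.ball_disjoint_ball
    have := hdist i j hij
    linarith
  have h2 := h.countable_of_isOpen (fun i _ => Metric.isOpen_ball)
    (fun i _ => ⟨e i, Metric.mem_ball_self (by norm_num)⟩)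
  exact Set.countable_univ_iff.mp h2

theorem summable_norm_pair {ι : Type*} {e : ι → H} (he : Orthonormal ℂ e) (hS : IsHS S)
    (hT : IsHS T) : Summable fun i => ‖⟪S (e i), T (e i)⟫_ℂ‖ := by
  obtain ⟨C, hC⟩ := hS
  obtain ⟨D, hD⟩ := hT
  refine Summable.of_nonneg_of_le (fun _ => norm_nonneg _) (fun i => ?_)
    ((hC.summable he).add (hD.summable he))
  calc ‖⟪S (e i), T (e i)⟫_ℂ‖ ≤ ‖S (e i)‖ * ‖T (e i)‖ := norm_inner_le_norm _ _
    _ ≤ ‖S (e i)‖ ^ 2 + ‖T (e i)‖ ^ 2 := by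
      nlinarith [sq_nonneg (‖S (e i)‖ - ‖T (e i)‖), norm_nonneg (S (e i)), norm_nonneg (T (e i))]

/-- The double sum over two Hilbert bases. -/
theorem hasSum_pair_aux [CompleteSpace H] [CompleteSpace G] {ι κ : Type*}
    (b : HilbertBasis ι ℂ H) (f : HilbertBasis κ ℂ G)
    (hS : IsHS S) (hT : IsHS T) :
    HasSum (fun i => ⟪S (b i), T (b i)⟫_ℂ)
      (∑' k, ⟪ContinuousLinearMap.adjoint T (f k), ContinuousLinearMap.adjoint S (f k)⟫_ℂ) := by
  obtain ⟨C, hC⟩ := hS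
  obtain ⟨D, hD⟩ := hT
  -- summability of the squares on the product
  have hsq : ∀ (R : H →L[ℂ] G) (E : ℝ), HSBound R E →
      Summable fun p : ι × κ => ‖⟪f p.2, R (b p.1)⟫_ℂ‖ ^ 2 := by
    intro R E hE
    rw [summable_prod_of_nonneg (fun p => by positivity)]
    refine ⟨fun i => (hasSum_norm_inner_sq f (R (b i))).summable, ?_⟩
    have : (fun i => ∑' k, ‖⟪f k, R (b i)⟫_ℂ‖ ^ 2) = fun i => ‖R (b i)‖ ^ 2 := by
      funext i
      exact (hasSum_norm_inner_sq f (R (b i))).tsum_eq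
    simp only [this]
    exact hE.summable b.orthonormal
  have hS2 := hsq S C hC
  have hT2 := hsq T D hD
  have hprod : Summable fun p : ι × κ => ⟪S (b p.1), f p.2⟫_ℂ * ⟪f p.2, T (b p.1)⟫_ℂ := by
    refine Summable.of_norm_bounded (hS2.add hT2) (fun p => ?_)
    rw [norm_mul, ← inner_conj_symm (S (b p.1)) (f p.2), RCLike.norm_conj]
    nlinarith [sq_nonneg (‖⟪f p.2, S (b p.1)⟫_ℂ‖ - ‖⟪f p.2, T (b p.1)⟫_ℂ‖),
      norm_nonneg ⟪f p.2, S (b p.1)⟫_ℂ, norm_nonneg ⟪f p.2, T (b p.1)⟫_ℂ]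
  have h1 : ∀ i, HasSum (fun k => ⟪S (b i), f k⟫_ℂ * ⟪f k, T (b i)⟫_ℂ) ⟪S (b i), T (b i)⟫_ℂ :=
    fun i => f.hasSum_inner_mul_inner _ _
  have h2 : ∀ k, HasSum (fun i => ⟪S (b i), f k⟫_ℂ * ⟪f k, T (b i)⟫_ℂ)
      ⟪ContinuousLinearMap.adjoint T (f k), ContinuousLinearMap.adjoint S (f k)⟫_ℂ := by
    intro k
    have h3 := b.hasSum_inner_mul_inner (ContinuousLinearMap.adjoint T (f k))
      (ContinuousLinearMap.adjoint S (f k))
    have h3' : (fun i => ⟪S (b i), f k⟫_ℂ * ⟪f k, T (b i)⟫_ℂ) = fun i =>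
        ⟪ContinuousLinearMap.adjoint T (f k), b i⟫_ℂ *
          ⟪b i, ContinuousLinearMap.adjoint S (f k)⟫_ℂ := by
      funext i
      rw [ContinuousLinearMap.adjoint_inner_left, ContinuousLinearMap.adjoint_inner_right,
        mul_comm]
    rw [h3']
    exact h3
  have h4 := hprod.hasSum.prod_fiberwise h1
  have hprod' : Summable fun p : κ × ι => ⟪S (b p.2), f p.1⟫_ℂ * ⟪f p.1, T (b p.2)⟫_ℂ :=
    (Equiv.prodComm κ ι).summable_iff.mpr hprod
  have h5 := hprod'.hasSum.prod_fiberwise h2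
  have h6 : ∑' p : κ × ι, ⟪S (b p.2), f p.1⟫_ℂ * ⟪f p.1, T (b p.2)⟫_ℂ
      = ∑' p : ι × κ, ⟪S (b p.1), f p.2⟫_ℂ * ⟪f p.2, T (b p.1)⟫_ℂ :=
    (Equiv.prodComm κ ι).tsum_eq (fun p : ι × κ => ⟪S (b p.1), f p.2⟫_ℂ * ⟪f p.2, T (b p.1)⟫_ℂ)
  rw [h5.tsum_eq, h6]
  exact h4

/-- The Hilbert–Schmidt pairing `∑ ⟪S e, T e⟫` over a Hilbert basis. -/
noncomputable def hsPair [CompleteSpace H] (S T : H →L[ℂ] G) : ℂ :=
  ∑' i : (exists_hilbertBasis ℂ H).choose,
    ⟪S ((exists_hilbertBasis ℂ H).choose_spec.choose i),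
      T ((exists_hilbertBasis ℂ H).choose_spec.choose i)⟫_ℂ

/-- **The pairing may be computed in any Hilbert basis.** -/
theorem IsHS.hasSum_pair [CompleteSpace H] [CompleteSpace G] {ι : Type*}
    (b : HilbertBasis ι ℂ H) (hS : IsHS S) (hT : IsHS T) :
    HasSum (fun i => ⟪S (b i), T (b i)⟫_ℂ) (hsPair S T) := by
  obtain ⟨w, f, -⟩ := exists_hilbertBasis ℂ G
  have h1 := hasSum_pair_aux b f hS hT
  have h2 := hasSum_pair_aux (exists_hilbertBasis ℂ H).choose_spec.choose f hS hT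
  rw [hsPair, h2.tsum_eq]
  exact h1

theorem hsPair_adjoint [CompleteSpace H] [CompleteSpace G] (hS : IsHS S) (hT : IsHS T) :
    hsPair (ContinuousLinearMap.adjoint T) (ContinuousLinearMap.adjoint S) = hsPair S T := by
  obtain ⟨w, f, -⟩ := exists_hilbertBasis ℂ G
  obtain ⟨w', b, -⟩ := exists_hilbertBasis ℂ H
  rw [← (IsHS.hasSum_pair f hT.adjoint hS.adjoint).tsum_eq,
    ← (hasSum_pair_aux b f hS hT).unique (IsHS.hasSum_pair b hS hT)]

/-- The trace of the compression of `A` to the subspace `W`. -/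
noncomputable def trOn (W : Submodule ℂ H) [W.HasOrthogonalProjection] (A : H →L[ℂ] H) : ℂ :=
  LinearMap.trace ℂ W ((W.orthogonalProjectionOnto ∘L A ∘L W.subtypeL : W →L[ℂ] W) : W →ₗ[ℂ] W)

theorem trOn_eq_sum (W : Submodule ℂ H) [W.HasOrthogonalProjection] {ι : Type*} [Fintype ι]
    (b : OrthonormalBasis ι ℂ W) (A : H →L[ℂ] H) :
    trOn W A = ∑ i, ⟪(b i : H), A (b i)⟫_ℂ := by
  rw [trOn, LinearMap.trace_eq_sum_inner _ b]
  apply Finset.sum_congr rfl
  intro i _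
  exact Submodule.inner_orthogonalProjectionOnto_eq_of_mem_left (b i) (A (b i))

/-- If `A` maps `W` into itself, `trOn W A` is the trace of the restriction. -/
theorem trOn_eq_trace (W : Submodule ℂ H) [W.HasOrthogonalProjection] [FiniteDimensional ℂ W]
    (A : H →L[ℂ] H) (hA : ∀ v ∈ W, A v ∈ W) :
    trOn W A = LinearMap.trace ℂ W ((A : H →ₗ[ℂ] H).restrict hA) := by
  rw [trOn]
  congr 1
  apply LinearMap.ext
  intro v
  apply Subtype.ext
  change ((W.orthogonalProjectionOnto (A v) : W) : H) = A v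
  exact Submodule.starProjection_eq_self_iff.mpr (hA v v.2)

/-- If `A` maps `W` into its orthogonal complement, `trOn W A = 0`. -/
theorem trOn_eq_zero (W : Submodule ℂ H) [W.HasOrthogonalProjection] [FiniteDimensional ℂ W]
    (A : H →L[ℂ] H) (hA : ∀ v ∈ W, ∀ w ∈ W, ⟪w, A v⟫_ℂ = 0) :
    trOn W A = 0 := by
  rw [trOn_eq_sum W (stdOrthonormalBasis ℂ W) A]
  exact Finset.sum_eq_zero fun i _ => hA _ (stdOrthonormalBasis ℂ W i).2 _
    (stdOrthonormalBasis ℂ W i).2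

/-- **Decomposition of the pairing** along an orthogonal family of finite dimensional subspaces
with dense sum. -/
theorem IsHS.hasSum_trOn [CompleteSpace H] [CompleteSpace G] {ι : Type*} {W : ι → Submodule ℂ H}
    [∀ i, FiniteDimensional ℂ (W i)]
    (hW : OrthogonalFamily ℂ (fun i => W i) fun i => (W i).subtypeₗᵢ)
    (hdense : (⨆ i, W i)ᗮ = ⊥) (hS : IsHS S) (hT : IsHS T) :
    HasSum (fun i => trOn (W i) (ContinuousLinearMap.adjoint S ∘L T)) (hsPair S T) := by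
  let c : (i : ι) → OrthonormalBasis (Fin (Module.finrank ℂ (W i))) ℂ (W i) :=
    fun i => stdOrthonormalBasis ℂ (W i)
  let e : (Σ i, Fin (Module.finrank ℂ (W i))) → H := fun p => (c p.1 p.2 : H)
  have he : Orthonormal ℂ e :=
    hW.orthonormal_sigma_orthonormal (fun i => (c i).orthonormal)
  have hspan : (Submodule.span ℂ (Set.range e))ᗮ = ⊥ := by
    rw [eq_bot_iff, ← hdense]
    apply Submodule.orthogonal_le
    refine iSup_le fun i v hv => ?_
    have h1 := (c i).sum_repr ⟨v, hv⟩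
    have h2 : v = ∑ k, (c i).repr ⟨v, hv⟩ k • (c i k : H) := by
      have := congrArg (fun y : W i => (y : H)) h1
      simpa using this.symm
    rw [h2]
    exact Submodule.sum_mem _ fun k _ => Submodule.smul_mem _ _
      (Submodule.subset_span ⟨⟨i, k⟩, rfl⟩)
  let b : HilbertBasis (Σ i, Fin (Module.finrank ℂ (W i))) ℂ H :=
    HilbertBasis.mkOfOrthogonalEqBot he hspan
  have hb : ∀ p, b p = e p := fun p => by
    rw [HilbertBasis.coe_mkOfOrthogonalEqBot]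
  have h3 := IsHS.hasSum_pair b hS hT
  have h4 : ∀ i, HasSum (fun k => ⟪S (b ⟨i, k⟩), T (b ⟨i, k⟩)⟫_ℂ)
      (trOn (W i) (ContinuousLinearMap.adjoint S ∘L T)) := by
    intro i
    rw [trOn_eq_sum (W i) (c i)]
    have h5 : ∑ k, ⟪(c i k : H), (ContinuousLinearMap.adjoint S ∘L T) (c i k)⟫_ℂ
        = ∑ k, ⟪S (b ⟨i, k⟩), T (b ⟨i, k⟩)⟫_ℂ := by
      apply Finset.sum_congr rfl
      intro k _
      rw [hb, ContinuousLinearMap.comp_apply, ContinuousLinearMap.adjoint_inner_right]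
    rw [h5]
    exact hasSum_fintype _
  exact h3.sigma h4

/-- Absolute convergence of the sum of traces. -/
theorem IsHS.summable_norm_trOn [CompleteSpace H] [CompleteSpace G] {ι : Type*}
    {W : ι → Submodule ℂ H} [∀ i, FiniteDimensional ℂ (W i)]
    (hW : OrthogonalFamily ℂ (fun i => W i) fun i => (W i).subtypeₗᵢ)
    (hdense : (⨆ i, W i)ᗮ = ⊥) (hS : IsHS S) (hT : IsHS T) :
    Summable fun i => ‖trOn (W i) (ContinuousLinearMap.adjoint S ∘L T)‖ :=
  (IsHS.hasSum_trOn hW hdense hS hT).summable.norm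

end Pair

section Rows

variable {H : Type*} [NormedAddCommGroup H] [InnerProductSpace ℂ H]
variable {X : Type*} [MeasurableSpace X] {μ : Measure X}

theorem norm_sq_L2 (f : Lp ℂ 2 μ) : ‖f‖ ^ 2 = ∫ x, ‖f x‖ ^ 2 ∂μ := by
  have h1 : ((‖f‖ ^ 2 : ℝ) : ℂ) = ⟪f, f⟫_ℂ := by
    rw [inner_self_eq_norm_sq_to_K]
    norm_cast
  rw [L2.inner_def] at h1
  have h2 : ∀ x, ⟪f x, f x⟫_ℂ = ((‖f x‖ ^ 2 : ℝ) : ℂ) := by
    intro x
    rw [inner_self_eq_norm_sq_to_K]
    norm_cast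
  simp_rw [h2] at h1
  rw [integral_complex_ofReal] at h1
  exact Complex.ofReal_injective h1

theorem integrable_norm_sq_L2 (f : Lp ℂ 2 μ) : Integrable (fun x => ‖f x‖ ^ 2) μ :=
  (memLp_two_iff_integrable_sq_norm (Lp.aestronglyMeasurable f)).mp (Lp.memLp f)

/-- An operator with rows `k x`: `(T v)(x) = ⟪k x, v⟫`, `∫ ‖k x‖² < ∞`. -/
theorem hsBound_of_rows {T : H →L[ℂ] Lp ℂ 2 μ} {k : X → H}
    (hT : ∀ v, T v =ᵐ[μ] fun x => ⟪k x, v⟫_ℂ) {g : X → ℝ} (hg : Integrable g μ)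
    (hk : ∀ᵐ x ∂μ, ‖k x‖ ^ 2 ≤ g x) : HSBound T (∫ x, g x ∂μ) := by
  intro n e he
  have h1 : ∑ i, ‖T (e i)‖ ^ 2 = ∫ x, ∑ i, ‖T (e i) x‖ ^ 2 ∂μ := by
    rw [integral_finsetSum _ (fun i _ => integrable_norm_sq_L2 (T (e i)))]
    exact Finset.sum_congr rfl fun i _ => norm_sq_L2 (T (e i))
  rw [h1]
  refine integral_mono_ae (integrable_finsetSum _ fun i _ => integrable_norm_sq_L2 (T (e i))) hg ?_
  have h2 : ∀ᵐ x ∂μ, ∀ i, T (e i) x = ⟪k x, e i⟫_ℂ := by
    rw [ae_all_iff]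
    exact fun i => hT (e i)
  filter_upwards [h2, hk] with x hx hkx
  refine le_trans ?_ hkx
  simp_rw [hx]
  have h3 := he.sum_inner_products_le (k x) (s := Finset.univ)
  refine le_trans (le_of_eq ?_) h3
  apply Finset.sum_congr rfl
  intro i _
  rw [← inner_conj_symm, RCLike.norm_conj]

/-- Sup-norm bound on a finite measure space. -/
theorem hsBound_of_ae [IsFiniteMeasure μ] {T : H →L[ℂ] Lp ℂ 2 μ} {C : ℝ}
    (hT : ∀ v, ∀ᵐ x ∂μ, ‖T v x‖ ≤ C * ‖v‖) : HSBound T (C ^ 2 * μ.real Set.univ) := by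
  intro n e he
  have h1 : ∑ i, ‖T (e i)‖ ^ 2 = ∫ x, ∑ i, ‖T (e i) x‖ ^ 2 ∂μ := by
    rw [integral_finsetSum _ (fun i _ => integrable_norm_sq_L2 (T (e i)))]
    exact Finset.sum_congr rfl fun i _ => norm_sq_L2 (T (e i))
  rw [h1]
  have h0 : C ^ 2 * μ.real Set.univ = ∫ _x, C ^ 2 ∂μ := by
    rw [integral_const, smul_eq_mul, mul_comm]
  rw [h0]
  refine integral_mono_ae (integrable_finsetSum _ fun i _ => integrable_norm_sq_L2 (T (e i)))
    (integrable_const _) ?_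
  -- a countable dense set of coefficient vectors
  let a : ℕ → (Fin n → ℂ) := TopologicalSpace.denseSeq (Fin n → ℂ)
  have hlin : ∀ c : Fin n → ℂ, T (∑ i, c i • e i) =ᵐ[μ] fun x => ∑ i, c i * T (e i) x := by
    intro c
    rw [map_sum]
    have h2 : ∀ s : Finset (Fin n), (∑ i ∈ s, T (c i • e i) : Lp ℂ 2 μ)
        =ᵐ[μ] fun x => ∑ i ∈ s, c i * T (e i) x := by
      intro s
      induction s using Finset.induction_on with
      | empty =>
        simp only [Finset.sum_empty]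
        exact Lp.coeFn_zero ℂ 2 μ
      | insert j s hj ih =>
        rw [Finset.sum_insert hj]
        have h3 := Lp.coeFn_add (T (c j • e j)) (∑ i ∈ s, T (c i • e i))
        have h4 : T (c j • e j) =ᵐ[μ] fun x => c j * T (e j) x := by
          rw [map_smul]
          filter_upwards [Lp.coeFn_smul (c j) (T (e j))] with x hx
          rw [hx, Pi.smul_apply, smul_eq_mul]
        filter_upwards [h3, h4, ih] with x hx1 hx2 hx3
        rw [hx1, Pi.add_apply, hx2, hx3, Finset.sum_insert hj]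
    exact h2 Finset.univ
  have hgood : ∀ᵐ x ∂μ, ∀ k, ‖∑ i, a k i * T (e i) x‖ ≤ C * ‖∑ i, a k i • e i‖ := by
    rw [ae_all_iff]
    intro k
    filter_upwards [hlin (a k), hT (∑ i, a k i • e i)] with x hx1 hx2
    rw [← hx1]
    exact hx2
  filter_upwards [hgood] with x hx
  have hall : ∀ c : Fin n → ℂ, ‖∑ i, c i * T (e i) x‖ ≤ C * ‖∑ i, c i • e i‖ := by
    have hclosed : IsClosed {c : Fin n → ℂ | ‖∑ i, c i * T (e i) x‖ ≤ C * ‖∑ i, c i • e i‖} := by
      apply isClosed_le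
      · fun_prop
      · fun_prop
    have hdense := TopologicalSpace.denseRange_denseSeq (Fin n → ℂ)
    have hsub : Set.range a ⊆
        {c : Fin n → ℂ | ‖∑ i, c i * T (e i) x‖ ≤ C * ‖∑ i, c i • e i‖} := by
      rintro _ ⟨k, rfl⟩
      exact hx k
    intro c
    have := hclosed.closure_subset_iff.mpr hsub (hdense c)
    exact this
  -- the functional on the span
  have h5 := hall (fun i => starRingEnd ℂ (T (e i) x))
  have h6 : ∑ i, (starRingEnd ℂ) (T (e i) x) * T (e i) x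
      = ((∑ i, ‖T (e i) x‖ ^ 2 : ℝ) : ℂ) := by
    push_cast
    exact Finset.sum_congr rfl fun i _ => Complex.conj_mul' _
  have h7 : ‖∑ i, (starRingEnd ℂ) (T (e i) x) • e i‖ ^ 2 = ∑ i, ‖T (e i) x‖ ^ 2 := by
    have h8 : ⟪∑ i, (starRingEnd ℂ) (T (e i) x) • e i, ∑ i, (starRingEnd ℂ) (T (e i) x) • e i⟫_ℂ
        = ((∑ i, ‖T (e i) x‖ ^ 2 : ℝ) : ℂ) := by
      rw [he.inner_sum]
      push_cast
      refine Finset.sum_congr rfl fun i _ => ?_
      rw [Complex.conj_conj, Complex.mul_conj']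
    rw [inner_self_eq_norm_sq_to_K] at h8
    apply Complex.ofReal_injective
    rw [← h8]
    norm_cast
  rw [h6, Complex.norm_real] at h5
  set Q : ℝ := ∑ i, ‖T (e i) x‖ ^ 2 with hQ
  have hQ0 : 0 ≤ Q := Finset.sum_nonneg fun i _ => by positivity
  rw [Real.norm_of_nonneg hQ0] at h5
  by_cases hQ1 : Q = 0
  · rw [hQ1]; positivity
  · have hQpos : 0 < Q := lt_of_le_of_ne hQ0 (Ne.symm hQ1)
    have h9 : Q ^ 2 ≤ C ^ 2 * Q := by
      calc Q ^ 2 ≤ (C * ‖∑ i, (starRingEnd ℂ) (T (e i) x) • e i‖) ^ 2 :=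
            pow_le_pow_left₀ hQ0 h5 2
        _ = C ^ 2 * Q := by rw [mul_pow, h7]
    nlinarith

/-- **The pairing of two operators with rows is the integral of the pairing of the rows.** -/
theorem hsPair_eq_integral_rows [CompleteSpace H] [TopologicalSpace.SeparableSpace H]
    {T₁ T₂ : H →L[ℂ] Lp ℂ 2 μ} (h₁ : IsHS T₁) (h₂ : IsHS T₂) {k₁ k₂ : X → H}
    (hk₁ : ∀ v, T₁ v =ᵐ[μ] fun x => ⟪k₁ x, v⟫_ℂ) (hk₂ : ∀ v, T₂ v =ᵐ[μ] fun x => ⟪k₂ x, v⟫_ℂ) :
    hsPair T₁ T₂ = ∫ x, ⟪k₂ x, k₁ x⟫_ℂ ∂μ := by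
  obtain ⟨w, b, -⟩ := exists_hilbertBasis ℂ H
  have hcount : Countable w := countable_of_orthonormal b.orthonormal
  have h3 := IsHS.hasSum_pair b h₁ h₂
  -- the terms as integrals
  have h4 : ∀ j, ⟪T₁ (b j), T₂ (b j)⟫_ℂ = ∫ x, ⟪k₂ x, b j⟫_ℂ * ⟪b j, k₁ x⟫_ℂ ∂μ := by
    intro j
    rw [L2.inner_def]
    apply integral_congr_ae
    filter_upwards [hk₁ (b j), hk₂ (b j)] with x hx1 hx2
    rw [hx1, hx2, RCLike.inner_apply, inner_conj_symm]
  have hint : ∀ j, Integrable (fun x => ⟪k₂ x, b j⟫_ℂ * ⟪b j, k₁ x⟫_ℂ) μ := by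
    intro j
    refine (L2.integrable_inner (𝕜 := ℂ) (T₁ (b j)) (T₂ (b j))).congr ?_
    filter_upwards [hk₁ (b j), hk₂ (b j)] with x hx1 hx2
    rw [hx1, hx2, RCLike.inner_apply, inner_conj_symm]
  have hsum : Summable fun j => ∫ x, ‖⟪k₂ x, b j⟫_ℂ * ⟪b j, k₁ x⟫_ℂ‖ ∂μ := by
    obtain ⟨C, hC⟩ := h₁
    obtain ⟨D, hD⟩ := h₂
    refine Summable.of_nonneg_of_le (fun _ => integral_nonneg fun _ => norm_nonneg _)
      (fun j => ?_) ((hC.summable b.orthonormal).add (hD.summable b.orthonormal))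
    rw [norm_sq_L2, norm_sq_L2, ← integral_add (integrable_norm_sq_L2 _) (integrable_norm_sq_L2 _)]
    refine integral_mono_ae (hint j).norm
      ((integrable_norm_sq_L2 _).add (integrable_norm_sq_L2 _)) ?_
    filter_upwards [hk₁ (b j), hk₂ (b j)] with x hx1 hx2
    rw [hx1, hx2, norm_mul, ← inner_conj_symm (b j) (k₁ x), RCLike.norm_conj]
    nlinarith [sq_nonneg (‖⟪k₁ x, b j⟫_ℂ‖ - ‖⟪k₂ x, b j⟫_ℂ‖), norm_nonneg ⟪k₁ x, b j⟫_ℂ,
      norm_nonneg ⟪k₂ x, b j⟫_ℂ]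
  have h5 := hasSum_integral_of_summable_integral_norm hint hsum
  have h6 : ∀ x, ∑' j, ⟪k₂ x, b j⟫_ℂ * ⟪b j, k₁ x⟫_ℂ = ⟪k₂ x, k₁ x⟫_ℂ :=
    fun x => b.tsum_inner_mul_inner _ _
  simp_rw [h6, ← h4] at h5
  exact h3.unique h5

end Rows

end Fermat.Agent.LT
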